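import Fermat.Agent.S56.GW.LEC.Kum.Surj
import Fermat.Agent.S55.Trans.LocH90

/-!
# S56, [GW-LEC], cell [LEC-KUM1] (helper7; prefix `s56lk_`): the local instance

`G := ↥U`, `U ≤ primeLocalGaloisGroup q` any subgroup, `L := (tl_levelsLoc q).comap U.subtype`,
`Ω := tl_locUnits q` with the restricted action: smoothness, divisibility, Hilbert 90 and the
count of the `p`-torsion hold unconditionally.
-/

set_option autoImplicit false

namespace Fermat.Agent.S56

open Fermat.Agent.S55 groupCohomology ExtCitation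

variable (q : Nat.Primes) (U : Subgroup (primeLocalGaloisGroup q))

theorem s56lk_loc_smooth : ((tl_levelsLoc q).comap U.subtype).IsSmooth (tl_locUnits q) := by
  intro x
  obtain ⟨W, hW, hfix⟩ := tl_isSmooth_locUnits q x
  exact ⟨W.comap U.subtype, ⟨W, hW, rfl⟩, fun u hu => hfix (u : primeLocalGaloisGroup q) hu⟩

theorem s56lk_loc_h90 (V : Subgroup ↥U) (c : ↥V → tl_locUnits q)
    (hc : ∀ v w : ↥V, c (v * w) = (v : ↥U) • c w + c v)
    (hlc : ∃ W ∈ ((tl_levelsLoc q).comap U.subtype).levels,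
      ∀ v u : ↥V, (u : ↥U) ∈ W → c (v * u) = c v) :
    ∃ β : tl_locUnits q, ∀ v : ↥V, c v = (v : ↥U) • β - β := by
  set H : Subgroup (primeLocalGaloisGroup q) := V.map U.subtype with hH
  have hmemU : ∀ h : ↥H, (h : primeLocalGaloisGroup q) ∈ U := by
    rintro ⟨h, v, -, rfl⟩
    exact v.2
  have hmemV : ∀ h : ↥H, (⟨(h : primeLocalGaloisGroup q), hmemU h⟩ : ↥U) ∈ V := by
    rintro ⟨h, v, hv, rfl⟩
    exact hv
  let e : ↥H → ↥V := fun h => ⟨⟨(h : primeLocalGaloisGroup q), hmemU h⟩, hmemV h⟩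
  have he_mul : ∀ g h : ↥H, e (g * h) = e g * e h := fun g h => rfl
  have hcoc : IsCocycle₁ (fun h : ↥H => c (e h)) := by
    intro g h
    show c (e (g * h)) = _
    rw [he_mul, hc]
    rfl
  obtain ⟨W, ⟨W₀, hW₀, rfl⟩, hW⟩ := hlc
  have hlc' : ((tl_levelsLoc q).comap H.subtype).IsLC1 (fun h : ↥H => c (e h)) := by
    refine ⟨W₀.comap H.subtype, ⟨W₀, hW₀, rfl⟩, fun g s hs => ?_⟩
    show c (e (g * s)) = c (e g)
    rw [he_mul]
    exact hW (e g) (e s) hs
  obtain ⟨β, hβ⟩ := tl_locUnits_coboundary q H _ hcoc hlc'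
  refine ⟨β, fun v => ?_⟩
  have hvH : ((v : ↥U) : primeLocalGaloisGroup q) ∈ H := ⟨(v : ↥U), v.2, rfl⟩
  have := hβ ⟨_, hvH⟩
  exact this

theorem s56lk_loc_div (p : ℕ) (hp : p.Prime) (a : tl_locUnits q) :
    ∃ b : tl_locUnits q, p • b = a :=
  tl_locUnits_divisible q p hp.ne_zero a

theorem s56lk_loc_tors_card (p : ℕ) (hp : p.Prime) :
    Nat.card {ζ : tl_locUnits q // p • ζ = 0} = p := by
  haveI : Fact (q : ℕ).Prime := ⟨q.2⟩
  haveI : NeZero p := ⟨hp.ne_zero⟩
  haveI : NeZero (p : PadicAlgCl (q : ℕ)) := ⟨by exact_mod_cast hp.ne_zero⟩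
  refine (Nat.card_congr ?_).trans
    (HasEnoughRootsOfUnity.natCard_rootsOfUnity (PadicAlgCl (q : ℕ)) p)
  refine ⟨fun ζ => ⟨tl_locUnits.val q ζ.1, ?_⟩,
    fun z => ⟨tl_locUnits.of q z.1, ?_⟩, fun ζ => rfl, fun z => rfl⟩
  · rw [mem_rootsOfUnity]
    have := congrArg (tl_locUnits.val q) ζ.2
    exact this
  · have := (mem_rootsOfUnity p z.1).mp z.2
    exact congrArg (tl_locUnits.of q) this

/-- **The local Kummer setting**: `V ⊴ U` open of index prime to `p`, fixing the `p`-th roots of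
unity, acting trivially on the finite `p`-torsion `U`-module `N`. -/
theorem s56lk_loc_setting {p : ℕ} (hp : p.Prime) (V : Subgroup ↥U) (hVn : V.Normal)
    (hVopen : ∃ V₀ ∈ ((tl_levelsLoc q).comap U.subtype).levels, V₀ ≤ V)
    (hcop : V.index.Coprime p)
    (hμ : ∀ ζ : tl_locUnits q, p • ζ = 0 → ∀ v ∈ V, v • ζ = ζ)
    (N : Type*) [AddCommGroup N] [DistribMulAction ↥U N] [Finite N]
    (hN : ∀ n : N, p • n = 0) (htriv : ∀ v ∈ V, ∀ n : N, v • n = n) :
    s56lk_Setting ((tl_levelsLoc q).comap U.subtype) p V (tl_locUnits q) N where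
  prime := hp
  normal := hVn
  level := hVopen
  coprime := hcop
  smooth := s56lk_loc_smooth q U
  div := s56lk_loc_div q p hp
  h90 := s56lk_loc_h90 q U V
  tors_fixed := hμ
  tors_card := s56lk_loc_tors_card q p hp
  fin := inferInstance
  tors := hN
  triv := htriv

end Fermat.Agent.S56
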