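import Fermat.Agent.S56.GW.LEC.Kum.Inj

/-!
# S56, [GW-LEC], cell [LEC-KUM1] (helper7; prefix `s56lk_`): double duality

`N` a finite elementary abelian `p`-group, `Ω` an abelian group whose `p`-torsion has exactly `p`
elements: every additive map `Hom(N, Ω) → Ω` is evaluation at a point of `N`.
-/

set_option autoImplicit false

namespace Fermat.Agent.S56

theorem s56lk_exists_zeta' {p : ℕ} (hp : p.Prime) {Ω : Type*} [AddCommGroup Ω]
    (hcard : Nat.card {ζ : Ω // p • ζ = 0} = p) : ∃ ζ : Ω, p • ζ = 0 ∧ ζ ≠ 0 := by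
  have : Finite {ζ : Ω // p • ζ = 0} :=
    Nat.finite_of_card_ne_zero (by rw [hcard]; exact hp.ne_zero)
  have : Nontrivial {ζ : Ω // p • ζ = 0} :=
    Finite.one_lt_card_iff_nontrivial.mp (by rw [hcard]; exact hp.one_lt)
  obtain ⟨ζ, hζ⟩ := exists_ne (⟨0, smul_zero p⟩ : {ζ : Ω // p • ζ = 0})
  exact ⟨ζ.1, ζ.2, fun h => hζ (Subtype.ext h)⟩

/-- Every `p`-torsion element is a multiple of a nonzero one. -/
theorem s56lk_zhom_surj {p : ℕ} (hp : p.Prime) {Ω : Type*} [AddCommGroup Ω]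
    (hcard : Nat.card {ζ : Ω // p • ζ = 0} = p) (ζ : Ω) (hζ : p • ζ = 0) (hζ0 : ζ ≠ 0)
    (t : Ω) (ht : p • t = 0) : ∃ k : ZMod p, s56lk_zhom p ζ hζ k = t := by
  haveI : Fact p.Prime := ⟨hp⟩
  have hfin : Finite {ζ : Ω // p • ζ = 0} :=
    Nat.finite_of_card_ne_zero (by rw [hcard]; exact hp.ne_zero)
  let F : ZMod p → {ζ : Ω // p • ζ = 0} := fun k =>
    ⟨s56lk_zhom p ζ hζ k, by
      rw [← map_nsmul]
      have : p • k = 0 := by
        rw [nsmul_eq_mul, ZMod.natCast_self, zero_mul]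
      rw [this, map_zero]⟩
  have hinj : Function.Injective F := by
    intro a b hab
    exact s56lk_zhom_injective hp ζ hζ hζ0 (congrArg Subtype.val hab)
  have hbij := hinj.bijective_of_nat_card_le (by rw [hcard, Nat.card_zmod])
  obtain ⟨k, hk⟩ := hbij.2 ⟨t, ht⟩
  exact ⟨k, congrArg Subtype.val hk⟩

theorem s56lk_dd_aux {p : ℕ} [hpf : Fact p.Prime] {N : Type*} [AddCommGroup N]
    [Module (ZMod p) N] [Finite N] {Ω : Type*} [AddCommGroup Ω]
    (hcard : Nat.card {ζ : Ω // p • ζ = 0} = p) (ψ : (N →+ Ω) →+ Ω) :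
    ∃ n : N, ∀ x : N →+ Ω, ψ x = x n := by
  classical
  have hp := hpf.out
  obtain ⟨ζ, hζ, hζ0⟩ := s56lk_exists_zeta' hp hcard
  have hinj := s56lk_zhom_injective hp ζ hζ hζ0
  have htorsN : ∀ n : N, p • n = 0 := by
    intro n
    rw [← Nat.cast_smul_eq_nsmul (ZMod p) p n, ZMod.natCast_self, zero_smul]
  have htorsX : ∀ (x : N →+ Ω) (n : N), p • x n = 0 := by
    intro x n
    rw [← map_nsmul, htorsN, map_zero]
  have htorsψ : ∀ x : N →+ Ω, p • ψ x = 0 := by
    intro x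
    rw [← map_nsmul]
    have : p • x = 0 := by
      ext n
      simp [htorsX x n]
    rw [this, map_zero]
  -- the functional attached to a homomorphism
  choose κ hκ using fun (t : {ζ : Ω // p • ζ = 0}) => s56lk_zhom_surj hp hcard ζ hζ hζ0 t.1 t.2
  let lam : (N →+ Ω) → (N →ₗ[ZMod p] ZMod p) := fun x =>
    AddMonoidHom.toZModLinearMap p (AddMonoidHom.mk' (fun n => κ ⟨x n, htorsX x n⟩) (by
      intro a b
      apply hinj
      rw [hκ, (s56lk_zhom p ζ hζ).map_add, hκ, hκ]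
      exact map_add x a b))
  have hlam : ∀ (x : N →+ Ω) (n : N), s56lk_zhom p ζ hζ (lam x n) = x n := by
    intro x n
    exact hκ ⟨x n, htorsX x n⟩
  -- the homomorphism attached to a functional
  let xof : (N →ₗ[ZMod p] ZMod p) → (N →+ Ω) := fun l =>
    (s56lk_zhom p ζ hζ).comp l.toAddMonoidHom
  have hxof_add : ∀ l m, xof (l + m) = xof l + xof m := by
    intro l m
    ext n
    simp [xof]
  have hxof_lam : ∀ x : N →+ Ω, xof (lam x) = x := by
    intro x
    ext n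
    exact hlam x n
  -- the functional on the dual
  let Ψ : (N →ₗ[ZMod p] ZMod p) →ₗ[ZMod p] ZMod p :=
    AddMonoidHom.toZModLinearMap p (AddMonoidHom.mk' (fun l => κ ⟨ψ (xof l), htorsψ _⟩) (by
      intro a b
      apply hinj
      rw [hκ, (s56lk_zhom p ζ hζ).map_add, hκ, hκ]
      show ψ (xof (a + b)) = ψ (xof a) + ψ (xof b)
      rw [hxof_add, map_add]))
  have hΨ : ∀ l, s56lk_zhom p ζ hζ (Ψ l) = ψ (xof l) := by
    intro l
    exact hκ ⟨ψ (xof l), htorsψ _⟩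
  haveI : Module.Finite (ZMod p) N := Module.Finite.of_finite
  let n : N := (Module.evalEquiv (ZMod p) N).symm Ψ
  have hn : ∀ l : N →ₗ[ZMod p] ZMod p, l n = Ψ l := by
    intro l
    have h1 : Module.evalEquiv (ZMod p) N n = Ψ := LinearEquiv.apply_symm_apply _ _
    have h2 : (Module.evalEquiv (ZMod p) N n) l = l n := rfl
    rw [← h2, h1]
  refine ⟨n, fun x => ?_⟩
  rw [← hxof_lam x, ← hΨ, ← hn]
  rfl

/-- **Double duality.** -/
theorem s56lk_dd {p : ℕ} (hp : p.Prime) {N : Type*} [AddCommGroup N] [Finite N]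
    (htorsN : ∀ n : N, p • n = 0) {Ω : Type*} [AddCommGroup Ω]
    (hcard : Nat.card {ζ : Ω // p • ζ = 0} = p) (ψ : (N →+ Ω) →+ Ω) :
    ∃ n : N, ∀ x : N →+ Ω, ψ x = x n := by
  haveI : Fact p.Prime := ⟨hp⟩
  exact @s56lk_dd_aux p _ N _ (AddCommGroup.zmodModule htorsN) _ Ω _ hcard ψ

end Fermat.Agent.S56
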