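import Mathlib
import Fermat.Agent.S55.Level.Cohomology

/-!
# S56, [GW-LEC], cell [LEC-KUM1] (helper7; prefix `s56lk_`): the Kummer map

Abstract setting in the S55 level formalism: `G` a group with a level system `L`, `Ω` a smooth
`p`-divisible `G`-module (the multiplicative module, written additively), `V` a normal level of
index prime to `p` satisfying Hilbert 90, containing the `p`-torsion of `Ω` (which has `p`
elements), `N` a finite `p`-torsion `G`-module on which `V` acts trivially.

This file: the definitions and the Kummer map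
`Φ : Z¹(G, N) → Hom_G(Hom(N, Ω), Ω^V / p)`, its additivity, equivariance, vanishing on
coboundaries.
-/

set_option autoImplicit false

namespace Fermat.Agent.S56

open Fermat.Agent.S55 groupCohomology

section Defs

variable {G : Type*} [Group G]

/-- The `V`-fixed points of `Ω`. -/
def s56lk_fix (V : Subgroup G) (Ω : Type*) [AddCommGroup Ω] [DistribMulAction G Ω] :
    AddSubgroup Ω where
  carrier := {a | ∀ v ∈ V, v • a = a}
  zero_mem' := fun v _ => smul_zero v
  add_mem' := by
    intro a b ha hb v hv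
    rw [smul_add, ha v hv, hb v hv]
  neg_mem' := by
    intro a ha v hv
    rw [smul_neg, ha v hv]

theorem s56lk_mem_fix {V : Subgroup G} {Ω : Type*} [AddCommGroup Ω] [DistribMulAction G Ω]
    {a : Ω} : a ∈ s56lk_fix V Ω ↔ ∀ v ∈ V, v • a = a := Iff.rfl

variable {Ω : Type*} [AddCommGroup Ω] [DistribMulAction G Ω]
  {N : Type*} [AddCommGroup N] [DistribMulAction G N]

/-- The conjugation action of `G` on `Hom(N, Ω)`. -/
def s56lk_act (g : G) (x : N →+ Ω) : N →+ Ω :=
  ((DistribSMul.toAddMonoidHom Ω g).comp x).comp (DistribSMul.toAddMonoidHom N g⁻¹)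

@[simp] theorem s56lk_act_apply (g : G) (x : N →+ Ω) (n : N) :
    s56lk_act g x n = g • x (g⁻¹ • n) := rfl

theorem s56lk_act_add (g : G) (x y : N →+ Ω) :
    s56lk_act g (x + y) = s56lk_act g x + s56lk_act g y := by
  ext n; simp [smul_add]

theorem s56lk_act_act (g h : G) (x : N →+ Ω) :
    s56lk_act g (s56lk_act h x) = s56lk_act (g * h) x := by
  ext n; simp [mul_smul]

theorem s56lk_act_one (x : N →+ Ω) : s56lk_act (1 : G) x = x := by
  ext n; simp

/-- The hypotheses of the abstract Kummer setting. -/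
structure s56lk_Setting (L : LevelSys G) (p : ℕ) (V : Subgroup G)
    (Ω : Type*) [AddCommGroup Ω] [DistribMulAction G Ω]
    (N : Type*) [AddCommGroup N] [DistribMulAction G N] : Prop where
  prime : p.Prime
  normal : V.Normal
  level : ∃ V₀ ∈ L.levels, V₀ ≤ V
  coprime : V.index.Coprime p
  smooth : L.IsSmooth Ω
  div : ∀ a : Ω, ∃ b : Ω, p • b = a
  h90 : ∀ c : ↥V → Ω, (∀ v w : ↥V, c (v * w) = (v : G) • c w + c v) →
    (∃ U ∈ L.levels, ∀ v u : ↥V, (u : G) ∈ U → c (v * u) = c v) →
    ∃ β : Ω, ∀ v : ↥V, c v = (v : G) • β - β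
  tors_fixed : ∀ ζ : Ω, p • ζ = 0 → ∀ v ∈ V, v • ζ = ζ
  tors_card : Nat.card {ζ : Ω // p • ζ = 0} = p
  fin : Finite N
  tors : ∀ n : N, p • n = 0
  triv : ∀ v ∈ V, ∀ n : N, v • n = n

/-- A model of `Ω^V / p Ω^V` with its `G`-action. -/
structure s56lk_Model (p : ℕ) (V : Subgroup G)
    (Ω : Type*) [AddCommGroup Ω] [DistribMulAction G Ω]
    (Q : Type*) [AddCommGroup Q] [DistribMulAction G Q] where
  π : ↥(s56lk_fix V Ω) →+ Q
  surj : Function.Surjective π
  ker : ∀ a, π a = 0 ↔ ∃ b : ↥(s56lk_fix V Ω), p • b = a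
  equiv : ∀ (g : G) (a : Ω) (ha : a ∈ s56lk_fix V Ω) (hga : g • a ∈ s56lk_fix V Ω),
    π ⟨g • a, hga⟩ = g • π ⟨a, ha⟩

/-- The target: `G`-equivariant homomorphisms `Hom(N, Ω) → Q`. -/
def s56lk_Tgt (G : Type*) [Group G] (Ω : Type*) [AddCommGroup Ω] [DistribMulAction G Ω]
    (N : Type*) [AddCommGroup N] [DistribMulAction G N]
    (Q : Type*) [AddCommGroup Q] [DistribMulAction G Q] : AddSubgroup ((N →+ Ω) →+ Q) where
  carrier := {φ | ∀ (g : G) (x : N →+ Ω), φ (s56lk_act g x) = g • φ x}
  zero_mem' := by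
    intro g x
    simp
  add_mem' := by
    intro φ ψ hφ hψ g x
    simp only [AddMonoidHom.add_apply, hφ g x, hψ g x, smul_add]
  neg_mem' := by
    intro φ hφ g x
    simp only [AddMonoidHom.neg_apply, hφ g x, smul_neg]

/-- `V` has finite index. -/
theorem s56lk_Setting.finiteIndex {L : LevelSys G} {p : ℕ} {V : Subgroup G}
    {Ω : Type*} [AddCommGroup Ω] [DistribMulAction G Ω]
    {N : Type*} [AddCommGroup N] [DistribMulAction G N] (S : s56lk_Setting L p V Ω N) :
    V.FiniteIndex := by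
  obtain ⟨V₀, hV₀, hle⟩ := S.level
  have := L.finiteIndex V₀ hV₀
  exact Subgroup.finiteIndex_of_le hle

end Defs

section Basic

variable {G : Type*} [Group G] {L : LevelSys G} {p : ℕ} {V : Subgroup G}
  {Ω : Type*} [AddCommGroup Ω] [DistribMulAction G Ω]
  {N : Type*} [AddCommGroup N] [DistribMulAction G N]

theorem s56lk_coc_one {c : G → N} (hc : IsCocycle₁ c) : c 1 = 0 := by
  have h := hc 1 1
  rw [mul_one, one_smul] at h
  exact left_eq_add.mp h |>.symm ▸ rfl

end Basic

end Fermat.Agent.S56
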