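import Mathlib

/-!
# S56, [GW-LEC], cell [LEC-KUM1] (helper7; prefix `s56lk_`): extension of invariant homomorphisms

`V ≤ G` normal of index prime to `p`, acting trivially on the `p`-torsion `G`-module `N`;
`f : V → N` a homomorphism with `f (g v g⁻¹) = g • f v`, trivial on a subgroup `U ≤ V` of finite
index in `G`.  Then `f` extends to a 1-cocycle `c : G → N`, constant modulo `U`
(Schur–Zassenhaus applied to `G / ker f`).
-/

set_option autoImplicit false

namespace Fermat.Agent.S56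

open groupCohomology

section

variable {G : Type*} [Group G] {N : Type*} [AddCommGroup N] [DistribMulAction G N]

/-- The data of an invariant homomorphism `V → N` (as a function on `G`). -/
structure s56lk_InvHom (V : Subgroup G) (f : G → N) : Prop where
  mul : ∀ v ∈ V, ∀ w ∈ V, f (v * w) = f v + f w
  conj : ∀ g : G, ∀ v ∈ V, f (g * v * g⁻¹) = g • f v

namespace s56lk_InvHom

variable {V : Subgroup G} {f : G → N}

theorem one (h : s56lk_InvHom V f) : f 1 = 0 := by
  have := h.mul 1 V.one_mem 1 V.one_mem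
  rw [mul_one] at this
  exact left_eq_add.mp this

theorem inv (h : s56lk_InvHom V f) {v : G} (hv : v ∈ V) : f v⁻¹ = -f v := by
  have := h.mul v hv v⁻¹ (V.inv_mem hv)
  rw [mul_inv_cancel, h.one] at this
  exact eq_neg_of_add_eq_zero_right this.symm

theorem pow (h : s56lk_InvHom V f) {v : G} (hv : v ∈ V) (n : ℕ) : f (v ^ n) = n • f v := by
  induction n with
  | zero => rw [pow_zero, zero_smul, h.one]
  | succ n ih =>
    rw [pow_succ, h.mul _ (V.pow_mem hv n) v hv, ih, succ_nsmul]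

/-- The kernel of `f`, as a subgroup of `G`. -/
def ker (h : s56lk_InvHom V f) : Subgroup G where
  carrier := {g | g ∈ V ∧ f g = 0}
  one_mem' := ⟨V.one_mem, h.one⟩
  mul_mem' := by
    rintro a b ⟨ha, ha0⟩ ⟨hb, hb0⟩
    exact ⟨V.mul_mem ha hb, by rw [h.mul a ha b hb, ha0, hb0, add_zero]⟩
  inv_mem' := by
    rintro a ⟨ha, ha0⟩
    exact ⟨V.inv_mem ha, by rw [h.inv ha, ha0, neg_zero]⟩

theorem mem_ker (h : s56lk_InvHom V f) {g : G} : g ∈ h.ker ↔ g ∈ V ∧ f g = 0 := Iff.rfl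

theorem ker_le (h : s56lk_InvHom V f) : h.ker ≤ V := fun _ hg => hg.1

theorem ker_normal (h : s56lk_InvHom V f) [hV : V.Normal] : h.ker.Normal := by
  refine ⟨fun k hk g => ⟨hV.conj_mem k hk.1 g, ?_⟩⟩
  rw [h.conj g k hk.1, hk.2, smul_zero]

end s56lk_InvHom

/-- **Extension of an invariant homomorphism to a cocycle** (Schur–Zassenhaus). -/
theorem s56lk_extend {p : ℕ} (hp : p.Prime) {V U : Subgroup G} [hV : V.Normal]
    (hcop : V.index.Coprime p) (hUV : U ≤ V) [hU : U.FiniteIndex]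
    (htriv : ∀ v ∈ V, ∀ n : N, v • n = n) (htors : ∀ n : N, p • n = 0)
    {f : G → N} (h : s56lk_InvHom V f) (hfU : ∀ u ∈ U, f u = 0) :
    ∃ c : G → N, IsCocycle₁ c ∧ (∀ v ∈ V, c v = f v) ∧ ∀ g : G, ∀ u ∈ U, c (g * u) = c g := by
  classical
  haveI : Fact p.Prime := ⟨hp⟩
  set K := h.ker with hK
  haveI hKn : K.Normal := h.ker_normal
  have hUK : U ≤ K := fun u hu => ⟨hUV hu, hfU u hu⟩
  haveI hKfi : K.FiniteIndex := Subgroup.finiteIndex_of_le hUK
  haveI : Finite (G ⧸ K) := Subgroup.finite_quotient_of_finiteIndex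
  let π : G →* G ⧸ K := QuotientGroup.mk' K
  have hπs : Function.Surjective π := QuotientGroup.mk'_surjective K
  let Vb : Subgroup (G ⧸ K) := V.map π
  haveI hVbn : Vb.Normal := hV.map π hπs
  -- `Vb` is a `p`-group
  have hVbp : IsPGroup p Vb := by
    rintro ⟨gb, v, hv, rfl⟩
    refine ⟨1, ?_⟩
    apply Subtype.ext
    rw [pow_one]
    show (π v) ^ p = 1
    rw [← map_pow]
    show (QuotientGroup.mk (v ^ p) : G ⧸ K) = 1
    rw [QuotientGroup.eq_one_iff]
    exact ⟨V.pow_mem hv p, by rw [h.pow hv, htors]⟩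
  obtain ⟨n, hn⟩ := IsPGroup.iff_card.mp hVbp
  have hidx : Vb.index = V.index := by
    have h1 := Subgroup.index_map V π
    have h2 : π.ker = K := QuotientGroup.ker_mk' K
    have h3 : V ⊔ π.ker = V := by rw [h2]; exact sup_eq_left.mpr h.ker_le
    have h4 : π.range = ⊤ := MonoidHom.range_eq_top.mpr hπs
    rw [h3, h4, Subgroup.index_top, mul_one] at h1
    exact h1
  have hcop' : (Nat.card Vb).Coprime Vb.index := by
    rw [hn, hidx]
    exact (Nat.Coprime.pow_left n hcop.symm)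
  obtain ⟨H, hH⟩ := Subgroup.exists_right_complement'_of_coprime hcop'
  -- (1) every `g` is `v * h` with `v ∈ V`, `π h ∈ H`
  have hex : ∀ g : G, ∃ v ∈ V, π (v⁻¹ * g) ∈ H := by
    intro g
    obtain ⟨⟨nb, hb⟩, hx, -⟩ := (Subgroup.isComplement'_def.mp hH).existsUnique (π g)
    obtain ⟨v, hv, hvn⟩ := nb.2
    refine ⟨v, hv, ?_⟩
    have : π (v⁻¹ * g) = (hb : G ⧸ K) := by
      rw [map_mul, map_inv, hvn, ← hx]
      simp
    rw [this]
    exact hb.2
  -- (2) `V ∩ π⁻¹ H ≤ K`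
  have hdisj : ∀ g ∈ V, π g ∈ H → f g = 0 := by
    intro g hg hgH
    have h1 : π g ∈ Vb ⊓ H := ⟨⟨g, hg, rfl⟩, hgH⟩
    rw [hH.disjoint.eq_bot, Subgroup.mem_bot] at h1
    have h2 : g ∈ K := (QuotientGroup.eq_one_iff g).mp h1
    exact h2.2
  choose vv hvV hvH using hex
  -- well-definedness
  have hwd : ∀ g : G, ∀ v ∈ V, π (v⁻¹ * g) ∈ H → f (vv g) = f v := by
    intro g v hv hvg
    have h1 : π ((vv g)⁻¹ * v) ∈ H := by
      have : (vv g)⁻¹ * v = ((vv g)⁻¹ * g) * (v⁻¹ * g)⁻¹ := by group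
      rw [this, map_mul, map_inv]
      exact H.mul_mem (hvH g) (H.inv_mem hvg)
    have h2 := hdisj _ (V.mul_mem (V.inv_mem (hvV g)) hv) h1
    rw [h.mul _ (V.inv_mem (hvV g)) v hv, h.inv (hvV g)] at h2
    rw [← sub_eq_zero, ← neg_sub, neg_eq_zero, sub_eq_add_neg, add_comm]
    exact h2
  refine ⟨fun g => f (vv g), ?_, ?_, ?_⟩
  · -- cocycle
    intro g g'
    set v := vv g
    set v' := vv g'
    set hh := v⁻¹ * g with hhh
    have hg : g = v * hh := by rw [hhh]; group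
    have hv'conj : hh * v' * hh⁻¹ ∈ V := hV.conj_mem v' (hvV g') hh
    have hw : v * (hh * v' * hh⁻¹) ∈ V := V.mul_mem (hvV g) hv'conj
    have hwH : π ((v * (hh * v' * hh⁻¹))⁻¹ * (g * g')) ∈ H := by
      have : (v * (hh * v' * hh⁻¹))⁻¹ * (g * g') = (v⁻¹ * g) * (v'⁻¹ * g') := by
        rw [hhh]; group
      rw [this, map_mul]
      exact H.mul_mem (hvH g) (hvH g')
    show f (vv (g * g')) = g • f v' + f v
    rw [hwd (g * g') _ hw hwH, h.mul v (hvV g) _ hv'conj, h.conj hh v' (hvV g'), add_comm]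
    congr 1
    show (v⁻¹ * g) • f v' = g • f v'
    rw [mul_smul, htriv v⁻¹ (V.inv_mem (hvV g))]
  · intro v hv
    exact hwd v v hv (by rw [inv_mul_cancel, map_one]; exact H.one_mem)
  · intro g u hu
    show f (vv (g * u)) = f (vv g)
    apply hwd (g * u) (vv g) (hvV g)
    have : (vv g)⁻¹ * (g * u) = ((vv g)⁻¹ * g) * u := by group
    rw [this, map_mul]
    have hu1 : π u = 1 := (QuotientGroup.eq_one_iff u).mpr (hUK hu)
    rw [hu1, mul_one]
    exact hvH g

end

end Fermat.Agent.S56
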