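import Fermat.Agent.S56.GW.LEC.Kum.Phi

/-!
# S56, [GW-LEC], cell [LEC-KUM1] (helper7; prefix `s56lk_`): the Kummer map is injective on `H¹`
-/

set_option autoImplicit false

namespace Fermat.Agent.S56

open Fermat.Agent.S55 groupCohomology

variable {G : Type*} [Group G] {L : LevelSys G} {p : ℕ} {V : Subgroup G}
  {Ω : Type*} [AddCommGroup Ω] [DistribMulAction G Ω]
  {N : Type*} [AddCommGroup N] [DistribMulAction G N]
  {Q : Type*} [AddCommGroup Q] [DistribMulAction G Q]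

/-- A nonzero `p`-torsion element of `Ω`. -/
theorem s56lk_exists_zeta (S : s56lk_Setting L p V Ω N) : ∃ ζ : Ω, p • ζ = 0 ∧ ζ ≠ 0 := by
  have hcard := S.tors_card
  have hp := S.prime
  have : Finite {ζ : Ω // p • ζ = 0} := Nat.finite_of_card_ne_zero (by rw [hcard]; exact hp.ne_zero)
  have : Nontrivial {ζ : Ω // p • ζ = 0} :=
    Finite.one_lt_card_iff_nontrivial.mp (by rw [hcard]; exact hp.one_lt)
  obtain ⟨ζ, hζ⟩ := exists_ne (⟨0, smul_zero p⟩ : {ζ : Ω // p • ζ = 0})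
  exact ⟨ζ.1, ζ.2, fun h => hζ (Subtype.ext h)⟩

/-- The homomorphism `ZMod p → Ω`, `k ↦ k • ζ`, for a `p`-torsion element `ζ`. -/
noncomputable def s56lk_zhom (p : ℕ) {Ω : Type*} [AddCommGroup Ω] (ζ : Ω) (hζ : p • ζ = 0) :
    ZMod p →+ Ω :=
  ZMod.lift p ⟨zmultiplesHom Ω ζ, by simpa using hζ⟩

theorem s56lk_zhom_natCast (p : ℕ) {Ω : Type*} [AddCommGroup Ω] (ζ : Ω) (hζ : p • ζ = 0)
    (k : ℕ) : s56lk_zhom p ζ hζ (k : ZMod p) = k • ζ := by
  have : ((k : ℤ) : ZMod p) = (k : ZMod p) := by push_cast; rfl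
  rw [s56lk_zhom, ← this, ZMod.lift_coe]
  simp

theorem s56lk_zhom_injective {p : ℕ} (hp : p.Prime) {Ω : Type*} [AddCommGroup Ω] (ζ : Ω)
    (hζ : p • ζ = 0) (hζ0 : ζ ≠ 0) : Function.Injective (s56lk_zhom p ζ hζ) := by
  haveI : Fact p.Prime := ⟨hp⟩
  rw [injective_iff_map_eq_zero]
  intro k hk
  have hk' : (k.val : ZMod p) = k := ZMod.natCast_zmod_val k
  rw [← hk', s56lk_zhom_natCast] at hk
  have hord : addOrderOf ζ = p := addOrderOf_eq_prime hζ hζ0
  have hdvd : p ∣ k.val := by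
    have := addOrderOf_dvd_of_nsmul_eq_zero hk
    rwa [hord] at this
  have hlt : k.val < p := ZMod.val_lt k
  have h0 : k.val = 0 := Nat.eq_zero_of_dvd_of_lt hdvd hlt
  rw [← hk', h0, Nat.cast_zero]

theorem s56lk_sep_aux {p : ℕ} [Fact p.Prime] {N : Type*} [AddCommGroup N] [Module (ZMod p) N]
    {Ω : Type*} [AddCommGroup Ω] (ζ : Ω) (hζ : p • ζ = 0) (hζ0 : ζ ≠ 0) (n : N)
    (h : ∀ x : N →+ Ω, x n = 0) : n = 0 := by
  refine (Module.forall_dual_apply_eq_zero_iff (V := N) (ZMod p) n).mp ?_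
  intro lam
  have := h ((s56lk_zhom p ζ hζ).comp lam.toAddMonoidHom)
  rw [AddMonoidHom.comp_apply] at this
  exact s56lk_zhom_injective Fact.out ζ hζ hζ0 (this.trans (map_zero _).symm)

/-- Homomorphisms `N → Ω` separate the points of `N`. -/
theorem s56lk_sep (S : s56lk_Setting L p V Ω N) (n : N) (h : ∀ x : N →+ Ω, x n = 0) : n = 0 := by
  haveI : Fact p.Prime := ⟨S.prime⟩
  obtain ⟨ζ, hζ, hζ0⟩ := s56lk_exists_zeta S
  exact @s56lk_sep_aux p _ N _ (AddCommGroup.zmodModule S.tors) Ω _ ζ hζ hζ0 n h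

/-- If `Φ(c) = 0` then `c` vanishes on `V`. -/
theorem s56lk_vanish_of_Phi (S : s56lk_Setting L p V Ω N) (M : s56lk_Model p V Ω Q)
    (c : lvZ1 L N) (h : s56lk_PhiZ S M c = 0) : ∀ v ∈ V, c.1 v = 0 := by
  intro v hv
  apply s56lk_sep S
  intro x
  obtain ⟨β, hβ⟩ := s56lk_exists_rel S c x
  have h1 : s56lk_PhiFun S M c x = 0 := by
    have := congrArg (fun φ : s56lk_Tgt G Ω N Q => (φ : (N →+ Ω) →+ Q) x) h
    simpa [s56lk_PhiZ_apply] using this
  rw [s56lk_PhiFun_eq S M c x hβ] at h1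
  have h0mem : p • (0 : Ω) ∈ s56lk_fix V Ω := by rw [smul_zero]; exact zero_mem _
  have h2 : M.π ⟨p • β, s56lk_rel_pmul_mem S hβ⟩ = M.π ⟨p • (0 : Ω), h0mem⟩ := by
    rw [h1]
    have : (⟨p • (0 : Ω), h0mem⟩ : s56lk_fix V Ω) = 0 := by apply Subtype.ext; simp
    rw [this, map_zero]
  have h3 := s56lk_delta_eq S M _ _ h2 v hv
  rw [hβ v hv, h3, smul_zero, sub_zero]

/-- **Averaging**: a cocycle vanishing on the normal subgroup `V` of finite index prime to `p`,
with values in a `p`-torsion module, is a coboundary. -/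
theorem s56lk_cob_of_vanish (S : s56lk_Setting L p V Ω N) {c : G → N} (hc : IsCocycle₁ c)
    (hV : ∀ v ∈ V, c v = 0) : ∃ n : N, lvD0 G N n = c := by
  classical
  have := S.normal
  have : V.FiniteIndex := S.finiteIndex
  haveI : Fintype (G ⧸ V) := Subgroup.fintypeQuotientOfFiniteIndex
  have hcv : ∀ g v, v ∈ V → c (g * v) = c g := by
    intro g v hv
    rw [hc g v, hV v hv, smul_zero, zero_add]
  -- the function on cosets
  let cbar : G ⧸ V → N := Quotient.lift c (by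
    intro a b hab
    have hab' : a⁻¹ * b ∈ V := QuotientGroup.leftRel_apply.mp hab
    have := hcv a (a⁻¹ * b) hab'
    rw [mul_inv_cancel_left] at this
    exact this.symm)
  have hcbar : ∀ g : G, cbar (QuotientGroup.mk g) = c g := fun g => rfl
  obtain ⟨T, hT⟩ : ∃ T : N, T = ∑ t : G ⧸ V, cbar t := ⟨_, rfl⟩
  have hsum : ∀ g : G, T = g • T + (V.index) • c g := by
    intro g
    have h1 : ∑ t : G ⧸ V, cbar (g • t) = ∑ t : G ⧸ V, cbar t :=
      Fintype.sum_equiv (MulAction.toPerm g) _ _ (fun t => rfl)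
    have h2 : ∀ t : G ⧸ V, cbar (g • t) = g • cbar t + c g := by
      intro t
      induction t using QuotientGroup.induction_on with
      | H h =>
        show cbar (QuotientGroup.mk (g * h)) = g • cbar (QuotientGroup.mk h) + c g
        rw [hcbar, hcbar, hc g h]
    have h3 : ∑ t : G ⧸ V, cbar (g • t) = g • T + (V.index) • c g := by
      simp only [h2, Finset.sum_add_distrib, Finset.sum_const, Finset.card_univ,
        ← Finset.smul_sum, ← hT]
      congr 2
      rw [Subgroup.index_eq_card, Nat.card_eq_fintype_card]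
    rw [← h3, h1, hT]
  -- invert the index modulo p
  obtain ⟨a, -, ha⟩ := Nat.exists_mul_mod_eq_one_of_coprime S.coprime S.prime.one_lt
  have hinv : ∀ y : N, (V.index * a) • y = y := by
    intro y
    have h1 : V.index * a = p * (V.index * a / p) + 1 := by
      have := Nat.div_add_mod (V.index * a) p
      rw [ha] at this
      exact this.symm
    rw [h1, add_smul, mul_smul, one_smul]
    have : p • ((V.index * a / p) • y) = 0 := S.tors _
    rw [this, zero_add]
  refine ⟨-(a • T), ?_⟩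
  funext g
  rw [lvD0_apply]
  have h3 := hsum g
  have h4 : (V.index) • c g = T - g • T := by
    rw [eq_sub_iff_add_eq, add_comm]; exact h3.symm
  have h5 : c g = a • (T - g • T) := by
    rw [← h4, ← mul_smul, mul_comm, hinv]
  rw [h5, smul_neg, smul_sub, smul_comm g a T]
  abel

/-- The kernel of `Φ` on cocycles consists of coboundaries. -/
theorem s56lk_PhiZ_ker (S : s56lk_Setting L p V Ω N) (M : s56lk_Model p V Ω Q)
    (c : lvZ1 L N) (h : s56lk_PhiZ S M c = 0) : (c : G → N) ∈ lvB1 (G := G) N := by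
  obtain ⟨n, hn⟩ := s56lk_cob_of_vanish S c.2.1 (s56lk_vanish_of_Phi S M c h)
  exact ⟨n, hn⟩

/-- The Kummer map on `H¹`. -/
noncomputable def s56lk_PhiH (S : s56lk_Setting L p V Ω N) (M : s56lk_Model p V Ω Q) :
    lvH1 L N →+ s56lk_Tgt G Ω N Q :=
  QuotientAddGroup.lift _ (s56lk_PhiZ S M) (by
    intro c hc
    exact s56lk_PhiZ_cob S M c (AddSubgroup.mem_addSubgroupOf.mp hc))

theorem s56lk_PhiH_mk (S : s56lk_Setting L p V Ω N) (M : s56lk_Model p V Ω Q) (c : lvZ1 L N) :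
    s56lk_PhiH S M (lvH1mk L N c) = s56lk_PhiZ S M c := rfl

theorem s56lk_PhiH_injective (S : s56lk_Setting L p V Ω N) (M : s56lk_Model p V Ω Q) :
    Function.Injective (s56lk_PhiH S M) := by
  rw [injective_iff_map_eq_zero]
  intro z hz
  obtain ⟨c, rfl⟩ := lvH1mk_surjective z
  rw [s56lk_PhiH_mk] at hz
  rw [lvH1mk_eq_zero_iff]
  exact s56lk_PhiZ_ker S M c hz

end Fermat.Agent.S56
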