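import Fermat.Agent.S56.GW.LEC.Kum.Defs

/-!
# S56, [GW-LEC], cell [LEC-KUM1] (helper7; prefix `s56lk_`): the Kummer map `Φ`

`Φ(c)(x) := π(p • β)` where `x ∘ c|_V = (v ↦ v • β - β)` (Hilbert 90).
-/

set_option autoImplicit false

namespace Fermat.Agent.S56

open Fermat.Agent.S55 groupCohomology

variable {G : Type*} [Group G] {L : LevelSys G} {p : ℕ} {V : Subgroup G}
  {Ω : Type*} [AddCommGroup Ω] [DistribMulAction G Ω]
  {N : Type*} [AddCommGroup N] [DistribMulAction G N]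
  {Q : Type*} [AddCommGroup Q] [DistribMulAction G Q]

/-- `c (g v g⁻¹) = g • c v` for `v ∈ V` (which acts trivially on `N`). -/
theorem s56lk_conj (S : s56lk_Setting L p V Ω N) {c : G → N} (hc : IsCocycle₁ c) (g : G)
    {v : G} (hv : v ∈ V) : c (g * v * g⁻¹) = g • c v := by
  have h1 : c (g * v * g⁻¹) = (g * v) • c g⁻¹ + c (g * v) := hc (g * v) g⁻¹
  have h2 : c (g * v) = g • c v + c g := hc g v
  have h3 : c (g * g⁻¹) = g • c g⁻¹ + c g := hc g g⁻¹
  rw [mul_inv_cancel, s56lk_coc_one hc] at h3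
  rw [h1, h2, mul_smul, S.triv v hv]
  have : g • c g⁻¹ + (g • c v + c g) = g • c v + (g • c g⁻¹ + c g) := by abel
  rw [this, ← h3, add_zero]

/-- Values of homomorphisms `N → Ω` are `p`-torsion. -/
theorem s56lk_tors_val (S : s56lk_Setting L p V Ω N) (x : N →+ Ω) (n : N) : p • x n = 0 := by
  rw [← map_nsmul, S.tors n, map_zero]

/-- The relation "`β` solves Hilbert 90 for `x ∘ c|_V`". -/
def s56lk_Rel (V : Subgroup G) (c : G → N) (x : N →+ Ω) (β : Ω) : Prop :=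
  ∀ v ∈ V, x (c v) = v • β - β

theorem s56lk_exists_rel (S : s56lk_Setting L p V Ω N) (c : lvZ1 L N) (x : N →+ Ω) :
    ∃ β : Ω, s56lk_Rel V c.1 x β := by
  obtain ⟨hc, U, hU, hlc⟩ := c.2
  obtain ⟨β, hβ⟩ := S.h90 (fun v => x (c.1 v)) (by
    intro v w
    show x (c.1 ((v : G) * (w : G))) = (v : G) • x (c.1 w) + x (c.1 v)
    rw [hc v w, S.triv v v.2, map_add,
      S.tors_fixed _ (s56lk_tors_val S x _) v v.2]) ⟨U, hU, fun v u hu => by
        show x (c.1 ((v : G) * (u : G))) = x (c.1 v)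
        rw [hlc v u hu]⟩
  exact ⟨β, fun v hv => hβ ⟨v, hv⟩⟩

theorem s56lk_rel_pmul_mem (S : s56lk_Setting L p V Ω N) {c : G → N} {x : N →+ Ω} {β : Ω}
    (h : s56lk_Rel V c x β) : p • β ∈ s56lk_fix V Ω := by
  intro v hv
  have h1 : p • (v • β - β) = 0 := by rw [← h v hv]; exact s56lk_tors_val S x _
  rw [smul_sub, sub_eq_zero] at h1
  rw [smul_comm]
  exact h1

/-- Two elements with the same "Kummer character" have the same image under `π ∘ p`. -/
theorem s56lk_pi_eq (M : s56lk_Model p V Ω Q) {β β' : Ω}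
    (h : ∀ v ∈ V, v • β - β = v • β' - β') (hβ : p • β ∈ s56lk_fix V Ω)
    (hβ' : p • β' ∈ s56lk_fix V Ω) : M.π ⟨p • β, hβ⟩ = M.π ⟨p • β', hβ'⟩ := by
  have hfix : β - β' ∈ s56lk_fix V Ω := by
    intro v hv
    have := h v hv
    rw [smul_sub]
    have h2 : v • β - v • β' = (v • β - β) - (v • β' - β') + (β - β') := by abel
    rw [h2, this, sub_self, zero_add]
  rw [← sub_eq_zero, ← map_sub, M.ker]
  refine ⟨⟨β - β', hfix⟩, ?_⟩
  apply Subtype.ext
  simp [smul_sub]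

/-- Conversely, the same image under `π ∘ p` forces the same "Kummer character". -/
theorem s56lk_delta_eq (S : s56lk_Setting L p V Ω N) (M : s56lk_Model p V Ω Q) {β β' : Ω}
    (hβ : p • β ∈ s56lk_fix V Ω) (hβ' : p • β' ∈ s56lk_fix V Ω)
    (h : M.π ⟨p • β, hβ⟩ = M.π ⟨p • β', hβ'⟩) : ∀ v ∈ V, v • β - β = v • β' - β' := by
  rw [← sub_eq_zero, ← map_sub, M.ker] at h
  obtain ⟨b, hb⟩ := h
  have hb' : p • (b : Ω) = p • β - p • β' := by
    have := congrArg Subtype.val hb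
    simpa using this
  have hζ : p • (β - β' - (b : Ω)) = 0 := by
    rw [smul_sub, smul_sub, hb', sub_self]
  intro v hv
  have h1 := S.tors_fixed _ hζ v hv
  have h2 := b.2 v hv
  have h3 : v • (β - β') = β - β' := by
    have : β - β' = (β - β' - (b : Ω)) + (b : Ω) := by abel
    rw [this, smul_add, h1, h2]
  rw [smul_sub] at h3
  have : v • β - β = (v • β - v • β') - (β - β') + (v • β' - β') := by abel
  rw [this, h3, sub_self, zero_add]

/-- The value `Φ(c)(x) ∈ Q`. -/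
noncomputable def s56lk_PhiFun (S : s56lk_Setting L p V Ω N) (M : s56lk_Model p V Ω Q)
    (c : lvZ1 L N) (x : N →+ Ω) : Q :=
  M.π ⟨p • Classical.choose (s56lk_exists_rel S c x),
    s56lk_rel_pmul_mem S (Classical.choose_spec (s56lk_exists_rel S c x))⟩

theorem s56lk_PhiFun_eq (S : s56lk_Setting L p V Ω N) (M : s56lk_Model p V Ω Q)
    (c : lvZ1 L N) (x : N →+ Ω) {β : Ω} (h : s56lk_Rel V c.1 x β) :
    s56lk_PhiFun S M c x = M.π ⟨p • β, s56lk_rel_pmul_mem S h⟩ := by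
  unfold s56lk_PhiFun
  apply s56lk_pi_eq M
  intro v hv
  rw [← Classical.choose_spec (s56lk_exists_rel S c x) v hv, ← h v hv]

omit [DistribMulAction G N] in
theorem s56lk_rel_add_x {c : G → N} {x y : N →+ Ω} {β γ : Ω} (hx : s56lk_Rel V c x β)
    (hy : s56lk_Rel V c y γ) : s56lk_Rel V c (x + y) (β + γ) := by
  intro v hv
  rw [AddMonoidHom.add_apply, hx v hv, hy v hv, smul_add]
  abel

omit [DistribMulAction G N] in
theorem s56lk_rel_add_c {c d : G → N} {x : N →+ Ω} {β γ : Ω} (hc : s56lk_Rel V c x β)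
    (hd : s56lk_Rel V d x γ) : s56lk_Rel V (c + d) x (β + γ) := by
  intro v hv
  rw [Pi.add_apply, map_add, hc v hv, hd v hv, smul_add]
  abel

theorem s56lk_rel_act (S : s56lk_Setting L p V Ω N) {c : G → N} (hc : IsCocycle₁ c)
    {x : N →+ Ω} {β : Ω} (h : s56lk_Rel V c x β) (g : G) :
    s56lk_Rel V c (s56lk_act g x) (g • β) := by
  intro v hv
  have hn := S.normal
  have hv' : g⁻¹ * v * g ∈ V := by
    have := hn.conj_mem v hv g⁻¹
    rwa [inv_inv] at this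
  have h1 : c (g⁻¹ * v * g) = g⁻¹ • c v := by
    have := s56lk_conj S hc g⁻¹ hv
    rwa [inv_inv] at this
  rw [s56lk_act_apply, ← h1, h _ hv', smul_sub, ← mul_smul, ← mul_smul]
  congr 2
  group

/-- `Φ(c)` as an additive map in `x`. -/
noncomputable def s56lk_PhiHom (S : s56lk_Setting L p V Ω N) (M : s56lk_Model p V Ω Q)
    (c : lvZ1 L N) : (N →+ Ω) →+ Q :=
  AddMonoidHom.mk' (s56lk_PhiFun S M c) (by
    intro x y
    obtain ⟨β, hβ⟩ := s56lk_exists_rel S c x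
    obtain ⟨γ, hγ⟩ := s56lk_exists_rel S c y
    rw [s56lk_PhiFun_eq S M c x hβ, s56lk_PhiFun_eq S M c y hγ,
      s56lk_PhiFun_eq S M c (x + y) (s56lk_rel_add_x hβ hγ), ← map_add]
    congr 1
    apply Subtype.ext
    simp [smul_add])

theorem s56lk_PhiHom_apply (S : s56lk_Setting L p V Ω N) (M : s56lk_Model p V Ω Q)
    (c : lvZ1 L N) (x : N →+ Ω) : s56lk_PhiHom S M c x = s56lk_PhiFun S M c x := rfl

theorem s56lk_PhiHom_mem (S : s56lk_Setting L p V Ω N) (M : s56lk_Model p V Ω Q)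
    (c : lvZ1 L N) : s56lk_PhiHom S M c ∈ s56lk_Tgt G Ω N Q := by
  intro g x
  obtain ⟨β, hβ⟩ := s56lk_exists_rel S c x
  have hg := s56lk_rel_act S c.2.1 hβ g
  have hmem : g • (p • β) ∈ s56lk_fix V Ω := by
    rw [smul_comm]; exact s56lk_rel_pmul_mem S hg
  rw [s56lk_PhiHom_apply, s56lk_PhiHom_apply, s56lk_PhiFun_eq S M c x hβ,
    s56lk_PhiFun_eq S M c _ hg, ← M.equiv g (p • β) (s56lk_rel_pmul_mem S hβ) hmem]
  congr 1
  apply Subtype.ext
  exact smul_comm p g β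

/-- The Kummer map on cocycles. -/
noncomputable def s56lk_PhiZ (S : s56lk_Setting L p V Ω N) (M : s56lk_Model p V Ω Q) :
    lvZ1 L N →+ s56lk_Tgt G Ω N Q :=
  AddMonoidHom.mk' (fun c => ⟨s56lk_PhiHom S M c, s56lk_PhiHom_mem S M c⟩) (by
    intro c d
    apply Subtype.ext
    ext x
    obtain ⟨β, hβ⟩ := s56lk_exists_rel S c x
    obtain ⟨γ, hγ⟩ := s56lk_exists_rel S d x
    have hcd : s56lk_Rel V (c + d : lvZ1 L N).1 x (β + γ) := s56lk_rel_add_c hβ hγ
    show s56lk_PhiFun S M (c + d) x = s56lk_PhiFun S M c x + s56lk_PhiFun S M d x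
    rw [s56lk_PhiFun_eq S M c x hβ, s56lk_PhiFun_eq S M d x hγ,
      s56lk_PhiFun_eq S M (c + d) x hcd, ← map_add]
    congr 1
    apply Subtype.ext
    simp [smul_add])

theorem s56lk_PhiZ_apply (S : s56lk_Setting L p V Ω N) (M : s56lk_Model p V Ω Q)
    (c : lvZ1 L N) (x : N →+ Ω) : (s56lk_PhiZ S M c : (N →+ Ω) →+ Q) x = s56lk_PhiFun S M c x :=
  rfl

/-- `Φ` kills coboundaries. -/
theorem s56lk_PhiZ_cob (S : s56lk_Setting L p V Ω N) (M : s56lk_Model p V Ω Q)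
    (c : lvZ1 L N) (hc : (c : G → N) ∈ lvB1 (G := G) N) : s56lk_PhiZ S M c = 0 := by
  obtain ⟨n, hn⟩ := hc
  apply Subtype.ext
  ext x
  have h0 : s56lk_Rel V c.1 x 0 := by
    intro v hv
    rw [← hn, lvD0_apply, S.triv v hv, sub_self, map_zero, smul_zero, sub_zero]
  rw [s56lk_PhiZ_apply, s56lk_PhiFun_eq S M c x h0]
  show _ = (0 : Q)
  rw [M.ker]
  exact ⟨0, by apply Subtype.ext; simp⟩

end Fermat.Agent.S56
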