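import Fermat.Agent.S56.GW.LEC.Kum.DD
import Fermat.Agent.S56.GW.LEC.Kum.Extend

/-!
# S56, [GW-LEC], cell [LEC-KUM1] (helper7; prefix `s56lk_`): the Kummer map is surjective,
and the main theorem `s56lk_main`.
-/

set_option autoImplicit false

namespace Fermat.Agent.S56

open Fermat.Agent.S55 groupCohomology

variable {G : Type*} [Group G] {L : LevelSys G} {p : ℕ} {V : Subgroup G}
  {Ω : Type*} [AddCommGroup Ω] [DistribMulAction G Ω]
  {N : Type*} [AddCommGroup N] [DistribMulAction G N]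
  {Q : Type*} [AddCommGroup Q] [DistribMulAction G Q]

/-- A finite family of levels has a common lower bound. -/
theorem s56lk_exists_level_le {ι : Type*} [Finite ι] (L : LevelSys G) (P : ι → Subgroup G)
    (hP : ∀ i, P i ∈ L.levels) : ∃ U ∈ L.levels, ∀ i, U ≤ P i := by
  classical
  haveI := Fintype.ofFinite ι
  have key : ∀ s : Finset ι, ∃ U ∈ L.levels, ∀ i ∈ s, U ≤ P i := by
    intro s
    induction s using Finset.induction_on with
    | empty =>
      obtain ⟨U, hU⟩ := L.nonempty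
      exact ⟨U, hU, fun i hi => absurd hi (Finset.notMem_empty i)⟩
    | insert a s _ ih =>
      obtain ⟨U, hU, hUs⟩ := ih
      obtain ⟨W, hW, hWle⟩ := L.directed U hU (P a) (hP a)
      refine ⟨W, hW, fun i hi => ?_⟩
      rcases Finset.mem_insert.mp hi with rfl | hi
      · exact hWle.trans inf_le_right
      · exact (hWle.trans inf_le_left).trans (hUs i hi)
  obtain ⟨U, hU, h⟩ := key Finset.univ
  exact ⟨U, hU, fun i => h i (Finset.mem_univ i)⟩

/-- `g • Ω^V ⊆ Ω^V` (`V` normal). -/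
theorem s56lk_fix_smul (S : s56lk_Setting L p V Ω N) (g : G) {a : Ω}
    (ha : a ∈ s56lk_fix V Ω) : g • a ∈ s56lk_fix V Ω := by
  intro v hv
  have hc : g⁻¹ * v * g ∈ V := by
    have := S.normal.conj_mem v hv g⁻¹
    rwa [inv_inv] at this
  have h1 : v * g = g * (g⁻¹ * v * g) := by group
  rw [← mul_smul, h1, mul_smul, ha _ hc]

/-- `Hom(N, Ω)` is finite. -/
theorem s56lk_finite_hom (S : s56lk_Setting L p V Ω N) : Finite (N →+ Ω) := by
  haveI := S.fin
  haveI : Finite {ζ : Ω // p • ζ = 0} :=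
    Nat.finite_of_card_ne_zero (by rw [S.tors_card]; exact S.prime.ne_zero)
  refine Finite.of_injective
    (fun (x : N →+ Ω) (n : N) => (⟨x n, s56lk_tors_val S x n⟩ : {ζ : Ω // p • ζ = 0})) ?_
  intro x y hxy
  ext n
  exact congrArg Subtype.val (congrFun hxy n)

section Root

variable (S : s56lk_Setting L p V Ω N) (M : s56lk_Model p V Ω Q) (φ : (N →+ Ω) →+ Q)
include S M φ

theorem s56lk_exists_root (x : N →+ Ω) :
    ∃ β : Ω, ∃ h : p • β ∈ s56lk_fix V Ω, M.π ⟨p • β, h⟩ = φ x := by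
  obtain ⟨a, ha⟩ := M.surj (φ x)
  obtain ⟨β, hβ⟩ := S.div a.1
  refine ⟨β, hβ ▸ a.2, ?_⟩
  rw [← ha]
  congr 1
  exact Subtype.ext hβ

/-- A chosen `p`-th root of a representative of `φ x`. -/
noncomputable def s56lk_root (x : N →+ Ω) : Ω := Classical.choose (s56lk_exists_root S M φ x)

theorem s56lk_root_mem (x : N →+ Ω) : p • s56lk_root S M φ x ∈ s56lk_fix V Ω :=
  (Classical.choose_spec (s56lk_exists_root S M φ x)).choose

theorem s56lk_root_spec (x : N →+ Ω) :
    M.π ⟨p • s56lk_root S M φ x, s56lk_root_mem S M φ x⟩ = φ x :=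
  (Classical.choose_spec (s56lk_exists_root S M φ x)).choose_spec

/-- The Kummer character of `φ x`. -/
noncomputable def s56lk_chi (x : N →+ Ω) (v : G) : Ω :=
  v • s56lk_root S M φ x - s56lk_root S M φ x

theorem s56lk_chi_tors (x : N →+ Ω) {v : G} (hv : v ∈ V) : p • s56lk_chi S M φ x v = 0 := by
  unfold s56lk_chi
  rw [smul_sub, sub_eq_zero, ← smul_comm]
  exact s56lk_root_mem S M φ x v hv

theorem s56lk_chi_mul (x : N →+ Ω) {v w : G} (hv : v ∈ V) (hw : w ∈ V) :
    s56lk_chi S M φ x (v * w) = s56lk_chi S M φ x v + s56lk_chi S M φ x w := by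
  have h1 := S.tors_fixed _ (s56lk_chi_tors S M φ x hw) v hv
  unfold s56lk_chi at h1 ⊢
  rw [smul_sub] at h1
  rw [mul_smul]
  have : v • w • s56lk_root S M φ x - s56lk_root S M φ x =
      (v • w • s56lk_root S M φ x - v • s56lk_root S M φ x) +
        (v • s56lk_root S M φ x - s56lk_root S M φ x) := by abel
  rw [this, h1]
  abel

theorem s56lk_chi_add (x y : N →+ Ω) {v : G} (hv : v ∈ V) :
    s56lk_chi S M φ (x + y) v = s56lk_chi S M φ x v + s56lk_chi S M φ y v := by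
  have hmem : p • (s56lk_root S M φ x + s56lk_root S M φ y) ∈ s56lk_fix V Ω := by
    rw [smul_add]
    exact add_mem (s56lk_root_mem S M φ x) (s56lk_root_mem S M φ y)
  have hπ : M.π ⟨p • s56lk_root S M φ (x + y), s56lk_root_mem S M φ (x + y)⟩ =
      M.π ⟨p • (s56lk_root S M φ x + s56lk_root S M φ y), hmem⟩ := by
    rw [s56lk_root_spec, map_add, ← s56lk_root_spec S M φ x, ← s56lk_root_spec S M φ y,
      ← map_add]
    congr 1
    apply Subtype.ext
    simp [smul_add]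
  have := s56lk_delta_eq S M _ _ hπ v hv
  unfold s56lk_chi
  rw [this, smul_add]
  abel

theorem s56lk_chi_act (hφ : φ ∈ s56lk_Tgt G Ω N Q) (x : N →+ Ω) (g : G) {v : G} (hv : v ∈ V) :
    s56lk_chi S M φ (s56lk_act g x) (g * v * g⁻¹) = g • s56lk_chi S M φ x v := by
  have hmem : p • (g • s56lk_root S M φ x) ∈ s56lk_fix V Ω := by
    rw [smul_comm]
    exact s56lk_fix_smul S g (s56lk_root_mem S M φ x)
  have hmem' : g • (p • s56lk_root S M φ x) ∈ s56lk_fix V Ω :=
    s56lk_fix_smul S g (s56lk_root_mem S M φ x)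
  have hπ : M.π ⟨p • s56lk_root S M φ (s56lk_act g x), s56lk_root_mem S M φ _⟩ =
      M.π ⟨p • (g • s56lk_root S M φ x), hmem⟩ := by
    rw [s56lk_root_spec, hφ g x, ← s56lk_root_spec S M φ x,
      ← M.equiv g _ (s56lk_root_mem S M φ x) hmem']
    congr 1
    apply Subtype.ext
    exact smul_comm g p _
  have hconj : g * v * g⁻¹ ∈ V := S.normal.conj_mem v hv g
  have := s56lk_delta_eq S M _ _ hπ (g * v * g⁻¹) hconj
  unfold s56lk_chi
  rw [this, smul_sub, ← mul_smul, ← mul_smul]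
  congr 2
  group

end Root

section Build

variable (S : s56lk_Setting L p V Ω N) (M : s56lk_Model p V Ω Q) (φ : (N →+ Ω) →+ Q)
include S M φ

/-- `x ↦ χ_x(v)` as an additive map. -/
noncomputable def s56lk_psi {v : G} (hv : v ∈ V) : (N →+ Ω) →+ Ω :=
  AddMonoidHom.mk' (fun x => s56lk_chi S M φ x v) (fun x y => s56lk_chi_add S M φ x y hv)

theorem s56lk_exists_f {v : G} (hv : v ∈ V) :
    ∃ n : N, ∀ x : N →+ Ω, s56lk_psi S M φ hv x = x n :=
  haveI := S.fin
  s56lk_dd S.prime S.tors S.tors_card (s56lk_psi S M φ hv)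

open Classical in
/-- The homomorphism `V → N` attached to `φ` (extended by `0` outside `V`). -/
noncomputable def s56lk_f (v : G) : N :=
  if hv : v ∈ V then Classical.choose (s56lk_exists_f S M φ hv) else 0

theorem s56lk_f_spec {v : G} (hv : v ∈ V) (x : N →+ Ω) :
    x (s56lk_f S M φ v) = s56lk_chi S M φ x v := by
  unfold s56lk_f
  rw [dif_pos hv]
  exact (Classical.choose_spec (s56lk_exists_f S M φ hv) x).symm

theorem s56lk_f_invHom (hφ : φ ∈ s56lk_Tgt G Ω N Q) : s56lk_InvHom V (s56lk_f S M φ) where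
  mul := by
    intro v hv w hw
    rw [← sub_eq_zero]
    apply s56lk_sep S
    intro x
    rw [map_sub, map_add, s56lk_f_spec S M φ (V.mul_mem hv hw), s56lk_f_spec S M φ hv,
      s56lk_f_spec S M φ hw, s56lk_chi_mul S M φ x hv hw, sub_self]
  conj := by
    intro g v hv
    have hconj : g * v * g⁻¹ ∈ V := S.normal.conj_mem v hv g
    rw [← sub_eq_zero]
    apply s56lk_sep S
    intro x
    rw [map_sub, s56lk_f_spec S M φ hconj, sub_eq_zero]
    have h1 : x (g • s56lk_f S M φ v) = g • (s56lk_act g⁻¹ x) (s56lk_f S M φ v) := by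
      rw [s56lk_act_apply, inv_inv, smul_inv_smul]
    rw [h1, s56lk_f_spec S M φ hv, ← s56lk_chi_act S M φ hφ (s56lk_act g⁻¹ x) g hv,
      s56lk_act_act, mul_inv_cancel, s56lk_act_one]

theorem s56lk_f_level : ∃ W ∈ L.levels, W ≤ V ∧ ∀ u ∈ W, s56lk_f S M φ u = 0 := by
  haveI := s56lk_finite_hom S
  choose P hP hPfix using fun x : N →+ Ω => S.smooth (s56lk_root S M φ x)
  obtain ⟨U, hU, hUP⟩ := s56lk_exists_level_le L P hP
  obtain ⟨V₀, hV₀, hV₀V⟩ := S.level
  obtain ⟨W, hW, hWle⟩ := L.directed U hU V₀ hV₀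
  refine ⟨W, hW, (hWle.trans inf_le_right).trans hV₀V, fun u hu => ?_⟩
  have huV : u ∈ V := hV₀V ((hWle.trans inf_le_right) hu)
  apply s56lk_sep S
  intro x
  rw [s56lk_f_spec S M φ huV]
  unfold s56lk_chi
  rw [hPfix x u (hUP x ((hWle.trans inf_le_left) hu)), sub_self]

end Build

section Main

variable (S : s56lk_Setting L p V Ω N) (M : s56lk_Model p V Ω Q)
include S M

/-- **Surjectivity of the Kummer map on cocycles.** -/
theorem s56lk_PhiZ_surjective : Function.Surjective (s56lk_PhiZ S M (L := L) (N := N)) := by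
  rintro ⟨φ, hφ⟩
  obtain ⟨W, hW, hWV, hfW⟩ := s56lk_f_level S M φ
  haveI := S.normal
  haveI : W.FiniteIndex := L.finiteIndex W hW
  obtain ⟨c, hc, hcV, hcW⟩ := s56lk_extend S.prime S.coprime hWV S.triv S.tors
    (s56lk_f_invHom S M φ hφ) hfW
  let cz : lvZ1 L N := ⟨c, hc, W, hW, hcW⟩
  refine ⟨cz, ?_⟩
  apply Subtype.ext
  ext x
  have hrel : s56lk_Rel V cz.1 x (s56lk_root S M φ x) := by
    intro v hv
    show x (c v) = _
    rw [hcV v hv, s56lk_f_spec S M φ hv]
    rfl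
  rw [s56lk_PhiZ_apply, s56lk_PhiFun_eq S M cz x hrel]
  exact s56lk_root_spec S M φ x

theorem s56lk_PhiH_surjective : Function.Surjective (s56lk_PhiH S M (L := L) (N := N)) := by
  intro φ
  obtain ⟨c, hc⟩ := s56lk_PhiZ_surjective S M φ
  exact ⟨lvH1mk L N c, by rw [s56lk_PhiH_mk, hc]⟩

/-- **[LEC-KUM1]**: `H¹(G, N) ≃ Hom_G(Hom(N, Ω), Ω^V / p)`. -/
noncomputable def s56lk_equiv : lvH1 L N ≃+ s56lk_Tgt G Ω N Q :=
  AddEquiv.ofBijective (s56lk_PhiH S M) ⟨s56lk_PhiH_injective S M, s56lk_PhiH_surjective S M⟩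

theorem s56lk_equiv_mk (c : lvZ1 L N) (x : N →+ Ω) :
    ((s56lk_equiv S M (lvH1mk L N c) : s56lk_Tgt G Ω N Q) : (N →+ Ω) →+ Q) x =
      s56lk_PhiFun S M c x := rfl

/-- **[LEC-KUM1]**, the statement of the claim: `H¹(G, N) ≃ Hom_G(Hom(N, Ω), Ω^V / p)`
(`s56lk_Tgt G Ω N Q` is the additive group of the `G`-equivariant `φ : (N →+ Ω) →+ Q`). -/
theorem s56lk_main : Nonempty (lvH1 L N ≃+ s56lk_Tgt G Ω N Q) :=
  ⟨s56lk_equiv S M⟩

/-- The cardinality form. -/
theorem s56lk_card : Nat.card (lvH1 L N) =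
    Nat.card {φ : (N →+ Ω) →+ Q // ∀ (g : G) (x : N →+ Ω), φ (s56lk_act g x) = g • φ x} :=
  Nat.card_congr (s56lk_equiv S M).toEquiv

end Main

end Fermat.Agent.S56
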